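import Fermat.Agent.S56.TW.Hyp
import Fermat.Agent.S56.GW.Scal
import Fermat.Agent.S56.G3.Main
import Fermat.Agent.S56.EC.Top.Statement

/-!
# S56 / [GW''] : the Greenberg-Wiles inequality for `W = ad⁰ ρ̄`, FINAL top-level interface (replaces `S56/GW.lean`).

Differences with `GW.lean greenberg_wiles`:
* specialised to `ρ = adRep rbar`, `ρ' = adTw p rbar`, `β = trP k`, under `RbarHyp p rbar`;
* the Taylor-Wiles conditions at `q ∈ Q` are hypotheses (needed for (G3): right non-degeneracy of the local pairing at `q`, `S56/G3/Main.lean`);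
* `∃ S₁` : the inequality is only claimed for `S₀ ⊇ S₁`, `S₁` a finite set of primes depending only on `rbar` (helper85 #1515 (c): the places of `F₀ = ℚbar^{ker rbar}` over `S₁` generate the class group).
  The assembly uses `S₀ := toP Smin ∪ S₁` with the condition `Lur` at the new primes.

Reduction (helper55): `CFT.gw_le` (Part W) + (EC) Euler characteristic (helper85, `S56/EC`) + (G3) (helper73) + W-SCAL (`k` versus `𝔽_p`).
-/

set_option autoImplicit false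

open ExtCitation Polynomial

namespace Fermat.Agent.S56

open CFT (levS levAll decomp Z1 B1 IsSmooth)

/-- the Greenberg-Wiles inequality at the level `S₀ ∪ Q` (arbitrary conditions at `S₀`, no condition at `Q`) -/
def GWStatement (p : ℕ) [Fact p.Prime] {k : Type} [Field k] [CharP k p] (rbar : GQ →* M2 k)
    (S₀ Q : Finset Nat.Primes) : Prop :=
  ∀ L : ∀ v : Nat.Primes, Submodule k (↥(decomp v) → sl2 k),
    (∀ v ∈ S₀, B1loc (adRep rbar) v ≤ L v) → (∀ v ∈ S₀, L v ≤ Z1loc (adRep rbar) v) →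
    (∀ b ∈ Z1 (levS (S₀ ∪ Q)) (adTw p rbar),
      (∀ q ∈ Q, resLoc k q b ∈ B1loc (adTw p rbar) q) → b ∈ B1 (adTw p rbar)) →
    ∃ c : GQ, c * c = 1 ∧ cycloChar p c = -1 ∧
      Finite ↥(Sel (S₀ ∪ Q) S₀ (adRep rbar) L) ∧
      Nat.card ↥(Sel (S₀ ∪ Q) S₀ (adRep rbar) L) * Nat.card ↥(sl2 k) ^ (S₀.card + Q.card) *
          Nat.card {w : sl2 k // adRep rbar c w = w} ≤
        (∏ v ∈ S₀, Nat.card ↥(L v)) * (∏ q ∈ Q, Nat.card ↥(Z1loc (adRep rbar) q)) *
          Nat.card ↥(sl2 k)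

/-- **[GW'']** -/
theorem exists_S1_greenberg_wiles {p : ℕ} [Fact p.Prime] (hp2 : p ≠ 2) {k : Type} [Field k] [Finite k]
    [CharP k p] {rbar : GQ →* M2 k} (h : RbarHyp p rbar) :
    ∃ S₁ : Finset Nat.Primes, ∀ S₀ Q : Finset Nat.Primes, S₁ ⊆ S₀ → Disjoint S₀ Q →
      pPrime p ∈ S₀ → UnramOutside rbar S₀ →
      (∀ q ∈ Q, p ∣ (q : ℕ) - 1 ∧ ∃ φ : GQ, (primeLocalPlace q).IsFrobeniusAt φ (q : ℕ) ∧
        ∃ α β : k, α ≠ β ∧ (rbar φ).charpoly = (X - C α) * (X - C β)) →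
      GWStatement p rbar S₀ Q := by
  obtain ⟨S₁, c, hc, hχc, hEC⟩ := exists_S1_euler_char hp2 h
  obtain ⟨t, ht⟩ := G3.exists_t p k
  have h2 : (2 : k) ≠ 0 := RbarHyp.two_ne_zero (k := k) hp2
  refine ⟨S₁, fun S₀ Q hS₁ hdisj hpS hur hQ L hLB hLZ hkill => ⟨c, hc, hχc, ?_⟩⟩
  have hurT : UnramOutside rbar (S₀ ∪ Q) := fun q hq A hA σ hσ =>
    hur q (fun hq' => hq (Finset.mem_union_left _ hq')) A hA σ hσ
  have hpT : pPrime p ∈ S₀ ∪ Q := Finset.mem_union_left _ hpS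
  refine greenberg_wiles_aux hp2 S₀ Q hdisj hpS (adRep rbar) (adTw p rbar)
    (adRep_smooth h.cont _ hurT) (adTw_smooth h.cont _ hpT hurT) (trP k) (trP_isEquivPairing rbar)
    (trP_left h2) (trP_right h2) (adRep_invariants hp2 h) (adTw_invariants hp2 h) L hLB hLZ hkill
    t ht ?_ c hc hχc (hEC _ (hS₁.trans Finset.subset_union_left) hpT hurT)
  intro q hq b hb H
  obtain ⟨hq1, φ, hφ, α, β, hαβ, hchar⟩ := hQ q hq
  have hqS : q ∉ S₀ := fun hq' => (Finset.disjoint_left.1 hdisj hq') hq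
  have hqp : (q : ℕ) ≠ p := by
    intro hqp
    apply hqS
    have : q = pPrime p := Subtype.ext hqp
    rw [this]
    exact hpS
  exact G3_Fp h2 rbar h.cont q hqp hq1
    (fun σ hσ => hur q hqS (primeLocalPlace q) (liesOverPrime_primeLocalPlace q) σ hσ) φ hφ α β hαβ hchar
    t ht hb H

end Fermat.Agent.S56
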