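import Fermat.Agent.CFT.K.Bridge
import Fermat.Agent.CFT.F.CupDefs
import Fermat.Agent.S53.Iface
import Fermat.Statements.S56

/-!
# S56 : basic definitions (matrix language).

* `GQ = Gal(ℚbar/ℚ)`, `M2 A` = `2 × 2` matrices (S53), a residual representation is `rbar : GQ →* M2 k`
  (S53 dictionary: `S53.HasMatrix`, `S53.Lifts`, `S53.mapRep`, `S53.MatCont`);
* `sl2 k`, `adRep rbar` (= `W = ad⁰ ρ̄`), `adTw p rbar = adRep.twist χ` (= `W' = W(1) ≅ W^*(1)`), `trP` the trace pairing;
* `coc r₁ : GQ → sl2 k` the cochain of a representation `r₁ : GQ →* M2 k[ε]`;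
* cohomology = the CFT cochain spaces `CFT.Z1 𝒰 ρ`, `CFT.B1 ρ` (submodules of `G → W`);  ALL dimension counts are done on COCYCLE
  spaces and with CARDINALITIES (`Nat.card`), never on quotients:
  `dim L_v - h⁰_v = dim L̃_v - dim W` if `L̃_v ⊇ B¹_v` is the preimage of `L_v` in `Z¹_v`.
-/

set_option autoImplicit false

open ExtCitation

namespace Fermat.Agent.S56

open CFT (levS levAll decomp Z1 B1 IsSmooth)

/-- `Gal(ℚbar/ℚ)` -/
abbrev GQ : Type := AlgebraicClosure ℚ ≃ₐ[ℚ] AlgebraicClosure ℚ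
/-- `2 × 2` matrices -/
abbrev M2 (A : Type) : Type := Matrix (Fin 2) (Fin 2) A

/-- a finite set of natural numbers, seen as a finite set of primes (non-primes are dropped) -/
def toP (T : Finset ℕ) : Finset Nat.Primes := T.subtype Nat.Prime

section Field

variable {k : Type} [Field k]

/-- trace zero matrices -/
def sl2 (k : Type) [Field k] : Submodule k (M2 k) := LinearMap.ker (Matrix.traceLinearMap (Fin 2) k k)

lemma mem_sl2 (m : M2 k) : m ∈ sl2 k ↔ m.trace = 0 := Iff.rfl

/-- the adjoint action on all matrices -/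
noncomputable def adFull (rbar : GQ →* M2 k) : Representation k GQ (M2 k) where
  toFun g :=
    { toFun := fun m => rbar g * m * rbar g⁻¹
      map_add' := fun a b => by rw [mul_add, add_mul]
      map_smul' := fun c a => by simp }
  map_one' := by ext m : 1; simp
  map_mul' g h := by ext m : 1; simp [mul_assoc]

@[simp] lemma adFull_apply (rbar : GQ →* M2 k) (g : GQ) (m : M2 k) :
    adFull rbar g m = rbar g * m * rbar g⁻¹ := rfl

lemma adFull_mem_sl2 (rbar : GQ →* M2 k) (g : GQ) {m : M2 k} (hm : m ∈ sl2 k) :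
    adFull rbar g m ∈ sl2 k := by
  rw [mem_sl2] at hm ⊢
  rw [adFull_apply, Matrix.trace_mul_comm, ← mul_assoc, ← map_mul, inv_mul_cancel, map_one, one_mul, hm]

/-- `W = ad⁰ ρ̄` -/
noncomputable def adRep (rbar : GQ →* M2 k) : Representation k GQ (sl2 k) where
  toFun g := (adFull rbar g).restrict (fun _ hm => adFull_mem_sl2 rbar g hm)
  map_one' := by ext m : 2; simp
  map_mul' g h := by ext m : 2; simp [mul_assoc]

@[simp] lemma adRep_apply_coe (rbar : GQ →* M2 k) (g : GQ) (m : sl2 k) :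
    ((adRep rbar g m : sl2 k) : M2 k) = rbar g * (m : M2 k) * rbar g⁻¹ := rfl

/-- the mod `p` cyclotomic character with values in `k` -/
noncomputable def chiK (p : ℕ) [Fact p.Prime] (k : Type) [Field k] [CharP k p] : GQ →* kˣ :=
  (Units.map ((ZMod.castHom (dvd_refl p) k : ZMod p →+* k) : ZMod p →* k)).comp (cycloChar p)

/-- `W' = ad⁰ ρ̄ (1)` -/
noncomputable def adTw (p : ℕ) [Fact p.Prime] [CharP k p] (rbar : GQ →* M2 k) :
    Representation k GQ (sl2 k) := (adRep rbar).twist (chiK p k)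

/-- the trace pairing `W × W' → k(1)` -/
def trP (k : Type) [Field k] : sl2 k →ₗ[k] sl2 k →ₗ[k] k :=
  LinearMap.mk₂ k (fun a b => ((a : M2 k) * (b : M2 k)).trace)
    (fun a a' b => by simp [add_mul]) (fun c a b => by simp)
    (fun a b b' => by simp [mul_add]) (fun c a b => by simp)

@[simp] lemma trP_apply (a b : sl2 k) : trP k a b = ((a : M2 k) * (b : M2 k)).trace := rfl

/-- the projection `M2 k → sl2 k`, `m ↦ m - (tr m / 2)` (char `≠ 2`) -/
noncomputable def toSl2 (h2 : (2 : k) ≠ 0) : M2 k →ₗ[k] sl2 k :=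
  LinearMap.codRestrict (sl2 k)
    (LinearMap.id - (LinearMap.toSpanSingleton k (M2 k) ((2 : k)⁻¹ • (1 : M2 k))).comp
      (Matrix.traceLinearMap (Fin 2) k k))
    (fun m => by
      rw [mem_sl2]
      simp [Matrix.trace_smul, Matrix.trace_one, h2])

/-- the cochain (with values in all matrices) of `r₁ : GQ →* M2 k[ε]`: `r₁ σ = (1 + ε c(σ)) ρ̄(σ)` -/
noncomputable def cocM (r₁ : GQ →* M2 (DualNumber k)) (σ : GQ) : M2 k :=
  (r₁ σ).map TrivSqZeroExt.snd * (r₁ σ⁻¹).map TrivSqZeroExt.fst

/-- the trace zero part of `cocM` -/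
noncomputable def coc (h2 : (2 : k) ≠ 0) (r₁ : GQ →* M2 (DualNumber k)) : GQ → sl2 k :=
  fun σ => toSl2 h2 (cocM r₁ σ)

/-- `r₁` reduces to `rbar` -/
def IsLift (rbar : GQ →* M2 k) (r₁ : GQ →* M2 (DualNumber k)) : Prop :=
  ∀ σ, (r₁ σ).map TrivSqZeroExt.fst = rbar σ

end Field

section Local

variable {k : Type} [CommRing k] {W : Type} [AddCommGroup W] [Module k W]

/-- restriction of a representation to the decomposition group of the distinguished place over `v` -/
noncomputable abbrev locRep (ρ : Representation k GQ W) (v : Nat.Primes) :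
    Representation k ↥(decomp v) W := ρ.comp (decomp v).subtype

/-- local continuous cocycles -/
noncomputable abbrev Z1loc (ρ : Representation k GQ W) (v : Nat.Primes) :
    Submodule k (↥(decomp v) → W) := Z1 (levAll.comap (decomp v).subtype) (locRep ρ v)

/-- local coboundaries -/
noncomputable abbrev B1loc (ρ : Representation k GQ W) (v : Nat.Primes) :
    Submodule k (↥(decomp v) → W) := B1 (locRep ρ v)

/-- restriction of cochains -/
noncomputable def resLoc (k : Type) [CommRing k] {W : Type} [AddCommGroup W] [Module k W] (v : Nat.Primes) :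
    (GQ → W) →ₗ[k] (↥(decomp v) → W) where
  toFun c := c ∘ (decomp v).subtype
  map_add' _ _ := rfl
  map_smul' _ _ := rfl

@[simp] lemma resLoc_apply (v : Nat.Primes) (c : GQ → W) (g : ↥(decomp v)) :
    resLoc k v c g = c g := rfl

/-- **Selmer cocycles**: continuous cocycles unramified outside `T`, with `res_v c ∈ L v` for `v ∈ S₀`. -/
noncomputable def Sel (T S₀ : Finset Nat.Primes) (ρ : Representation k GQ W)
    (L : ∀ v : Nat.Primes, Submodule k (↥(decomp v) → W)) : Submodule k (GQ → W) :=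
  Z1 (levS T) ρ ⊓ ⨅ v ∈ S₀, (L v).comap (resLoc k v)

lemma mem_Sel {T S₀ : Finset Nat.Primes} {ρ : Representation k GQ W}
    {L : ∀ v : Nat.Primes, Submodule k (↥(decomp v) → W)} {c : GQ → W} :
    c ∈ Sel T S₀ ρ L ↔ c ∈ Z1 (levS T) ρ ∧ ∀ v ∈ S₀, resLoc k v c ∈ L v := by
  simp [Sel, Submodule.mem_iInf]

end Local

end Fermat.Agent.S56
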